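/-
Programme AV (S26/S27), brick CCUBE (helper32), part (A): a rigidified line bundle on `C × T`,
`T` geometrically integral and locally of finite type over `k`, which is trivial over one rational
point of `T`, is fibrewise algebraically equivalent to zero (the connecting family is the bundle
itself, over `T_K`).
-/
import Mathlib
import Fermat.Agent.Jac.PoincareMem79

set_option autoImplicit false

noncomputable section

universe u

open CategoryTheory CategoryTheory.Limits AlgebraicGeometry AlgebraicGeometry.RelPicard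
  NeronModelInfra GoodReductionJacobian

namespace Fermat.Agent.AV.CCube32

open Fermat.Agent.Jac.PoincareMem79

variable {k : Type u} [Field k] {C : Scheme.{u}} {c : C ⟶ Spec (CommRingCat.of k)}
  {ε : SchemeHomOver (𝟙 (Spec (CommRingCat.of k))) c}

/-- A rigidified line bundle over a geometrically integral base, trivial over one rational point
of the base, is fibrewise algebraically equivalent to zero. -/
theorem fibrewiseAlgEquivZero_of_point {T : Scheme.{u}} (t : T ⟶ Spec (CommRingCat.of k))
    [LocallyOfFiniteType t] [GeometricallyIntegral t] (M : RigidifiedLineBundle c ε t)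
    (z : SchemeHomOver (𝟙 (Spec (CommRingCat.of k))) t)
    (hz : Nonempty ((Scheme.Modules.pullback (baseChangeSnd c z)).obj M.L ≅
      SheafOfModules.unit (pullback c (𝟙 (Spec (CommRingCat.of k)))).ringCatSheaf)) :
    FibrewiseAlgEquivZero M := by
  intro K _ _ s
  have hw : pullback.fst t (s ≫ t) ≫ t = pullback.snd t (s ≫ t) ≫ s ≫ t := pullback.condition
  have hz1 : z.1 ≫ t = 𝟙 _ := z.2
  -- the rational point `t1` of `T_K` defined by `s`
  have ht1T : pullback.lift s (𝟙 _) (by rw [Category.id_comp]) ≫ pullback.snd t (s ≫ t) =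
      𝟙 (Spec (CommRingCat.of K)) := pullback.lift_snd _ _ _
  have ht1a : pullback.lift s (𝟙 _) (by rw [Category.id_comp]) ≫ pullback.fst t (s ≫ t) = s :=
    pullback.lift_fst _ _ _
  -- the rational point `t0` of `T_K` over `z`
  have ht0T : pullback.lift ((s ≫ t) ≫ z.1) (𝟙 _)
      (by rw [Category.assoc, hz1, Category.comp_id, Category.id_comp]) ≫
      pullback.snd t (s ≫ t) = 𝟙 (Spec (CommRingCat.of K)) := pullback.lift_snd _ _ _
  have ht0a : pullback.lift ((s ≫ t) ≫ z.1) (𝟙 _)
      (by rw [Category.assoc, hz1, Category.comp_id, Category.id_comp]) ≫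
      pullback.fst t (s ≫ t) = (s ≫ t) ≫ z.1 := pullback.lift_fst _ _ _
  refine ⟨pullback t (s ≫ t), pullback.snd t (s ≫ t), inferInstance, inferInstance,
    (Scheme.Modules.pullback (famMap c t s _ _ hw)).obj M.L,
    M.isInvertible.pullback _, ⟨_, ht0T⟩, ⟨_, ht1T⟩, ⟨?_⟩, ⟨?_⟩⟩
  · have hfac := baseChangeSnd_famMap_of_zero c t s _ _ hw ⟨_, ht0T⟩ z ht0a
    exact (Scheme.Modules.pullbackComp _ _).app M.L ≪≫
      (Scheme.Modules.pullbackCongr hfac).app M.L ≪≫
      ((Scheme.Modules.pullbackComp _ _).app M.L).symm ≪≫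
      (Scheme.Modules.pullback (fibreToUnit c t s)).mapIso hz.some ≪≫
      Scheme.Modules.pullbackUnitIso (fibreToUnit c t s)
  · have hfac := baseChangeSnd_famMap_of_eq c t s _ _ hw ⟨_, ht1T⟩ ht1a
    exact (Scheme.Modules.pullbackComp _ _).app M.L ≪≫
      (Scheme.Modules.pullbackCongr hfac).app M.L ≪≫
      ((Scheme.Modules.pullbackComp _ _).app M.L).symm

end Fermat.Agent.AV.CCube32
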