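/-
Programme AV (S26/S27), brick CCUBE (helper32), part (B): calculus of classifying maps for a
representing object of a cut rigidified Picard functor: functoriality of `pullbackAlong`,
the zero map classifies the trivial bundle, naturality of `classify`, and
"classifying map zero ⟹ bundle trivial".
-/
import Mathlib
import Fermat.Prelude.Def_AlgebraicGeometry_RepresentsRelSubPic

set_option autoImplicit false

noncomputable section

universe u

open CategoryTheory CategoryTheory.Limits AlgebraicGeometry AlgebraicGeometry.RelPicard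
  NeronModelInfra GoodReductionJacobian

namespace Fermat.Agent.AV.CCube32

variable {R : Type u} [CommRing R] {C : Scheme.{u}} {c : C ⟶ Spec (CommRingCat.of R)}
  {ε : SchemeHomOver (𝟙 (Spec (CommRingCat.of R))) c}

/-- A rigidified line bundle is *trivial* if its underlying module is isomorphic to the unit. -/
def IsTriv {T : Scheme.{u}} {t : T ⟶ Spec (CommRingCat.of R)} (M : RigidifiedLineBundle c ε t) :
    Prop :=
  Nonempty (M.L ≅ SheafOfModules.unit (pullback c t).ringCatSheaf)

theorem isTriv_unit {T : Scheme.{u}} (t : T ⟶ Spec (CommRingCat.of R)) :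
    IsTriv (RigidifiedLineBundle.unit (c := c) (ε := ε) t) :=
  ⟨Iso.refl _⟩

theorem IsTriv.congr {T : Scheme.{u}} {t : T ⟶ Spec (CommRingCat.of R)}
    {M M' : RigidifiedLineBundle c ε t} (e : Nonempty (M.L ≅ M'.L)) (hM : IsTriv M) :
    IsTriv M' :=
  ⟨e.some.symm ≪≫ hM.some⟩

/-- Pulling back a rigidified line bundle twice is pulling back along the composite. -/
def pullbackAlongCompIso {X X' T' : Scheme.{u}} {x : X ⟶ Spec (CommRingCat.of R)}
    {x' : X' ⟶ Spec (CommRingCat.of R)} {t' : T' ⟶ Spec (CommRingCat.of R)}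
    (M : RigidifiedLineBundle c ε x') (φ : SchemeHomOver x x') (ψ : SchemeHomOver t' x) :
    ((M.pullbackAlong φ).pullbackAlong ψ).L ≅ (M.pullbackAlong (postComp φ ψ)).L :=
  (Scheme.Modules.pullbackComp _ _).app M.L ≪≫
    (Scheme.Modules.pullbackCongr (baseChangeSnd_comp c φ ψ)).app M.L

/-- Pulling back along the identity does nothing. -/
def pullbackAlongIdIso {T : Scheme.{u}} {t : T ⟶ Spec (CommRingCat.of R)}
    (M : RigidifiedLineBundle c ε t) :
    (M.pullbackAlong (⟨𝟙 T, Category.id_comp t⟩ : SchemeHomOver t t)).L ≅ M.L :=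
  (Scheme.Modules.pullbackCongr (baseChangeSnd_id c t)).app M.L ≪≫
    (Scheme.Modules.pullbackId (pullback c t)).app M.L

/-- Pullback only depends on the underlying morphism. -/
theorem pullbackAlong_congr_hom {T T' : Scheme.{u}} {t : T ⟶ Spec (CommRingCat.of R)}
    {t' : T' ⟶ Spec (CommRingCat.of R)} (M : RigidifiedLineBundle c ε t)
    {ψ ψ' : SchemeHomOver t' t} (h : ψ = ψ') :
    Nonempty ((M.pullbackAlong ψ).L ≅ (M.pullbackAlong ψ').L) := by
  subst h; exact ⟨Iso.refl _⟩

theorem IsTriv.pullbackAlong {T T' : Scheme.{u}} {t : T ⟶ Spec (CommRingCat.of R)}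
    {t' : T' ⟶ Spec (CommRingCat.of R)} {M : RigidifiedLineBundle c ε t} (hM : IsTriv M)
    (ψ : SchemeHomOver t' t) : IsTriv (M.pullbackAlong ψ) :=
  ⟨(Scheme.Modules.pullback (baseChangeSnd c ψ)).mapIso hM.some ≪≫
    Scheme.Modules.pullbackUnitIso _⟩

variable {P : SubPicCondition c ε} {D : RelativePic0Designation R c}

/-- The zero morphism `T ⟶ D.P` over the base. -/
def zeroOver (D : RelativePic0Designation R c) {T : Scheme.{u}}
    (t : T ⟶ Spec (CommRingCat.of R)) : SchemeHomOver t D.toBase :=
  ⟨t ≫ D.zeroSection, by rw [Category.assoc, D.zeroSection_toBase, Category.comp_id]⟩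

@[simp]
theorem zeroOver_coe (D : RelativePic0Designation R c) {T : Scheme.{u}}
    (t : T ⟶ Spec (CommRingCat.of R)) : (zeroOver D t).1 = t ≫ D.zeroSection := rfl

theorem postComp_zeroOver (D : RelativePic0Designation R c) {T T' : Scheme.{u}}
    {t : T ⟶ Spec (CommRingCat.of R)} {t' : T' ⟶ Spec (CommRingCat.of R)}
    (ψ : SchemeHomOver t' t) : postComp (zeroOver D t) ψ = zeroOver D t' :=
  Subtype.ext (by
    change ψ.1 ≫ t ≫ D.zeroSection = t' ≫ D.zeroSection
    rw [← Category.assoc, ψ.2])

/-- The structure morphism of `T` as a morphism over the base to the base. -/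
def structOver {T : Scheme.{u}} (t : T ⟶ Spec (CommRingCat.of R)) :
    SchemeHomOver t (𝟙 (Spec (CommRingCat.of R))) :=
  ⟨t, Category.comp_id t⟩

theorem postComp_zeroSection_structOver (D : RelativePic0Designation R c) {T : Scheme.{u}}
    (t : T ⟶ Spec (CommRingCat.of R)) :
    postComp (⟨D.zeroSection, D.zeroSection_toBase⟩ :
      SchemeHomOver (𝟙 (Spec (CommRingCat.of R))) D.toBase) (structOver t) = zeroOver D t :=
  rfl

namespace Rep

variable (h : RepresentsRelSubPic c ε P D)

/-- The Poincaré bundle pulled back along the zero morphism is trivial. -/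
theorem isTriv_pullbackAlong_zeroOver {T : Scheme.{u}} (t : T ⟶ Spec (CommRingCat.of R)) :
    IsTriv (h.poincare.pullbackAlong (zeroOver D t)) := by
  have h0 : IsTriv (h.poincare.pullbackAlong
      (⟨D.zeroSection, D.zeroSection_toBase⟩ :
        SchemeHomOver (𝟙 (Spec (CommRingCat.of R))) D.toBase)) := ⟨h.zero.some⟩
  have h1 := h0.pullbackAlong (structOver t)
  have h2 : IsTriv (h.poincare.pullbackAlong (postComp (⟨D.zeroSection, D.zeroSection_toBase⟩ :
      SchemeHomOver (𝟙 (Spec (CommRingCat.of R))) D.toBase) (structOver t))) :=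
    IsTriv.congr ⟨pullbackAlongCompIso h.poincare _ (structOver t)⟩ h1
  exact IsTriv.congr (pullbackAlong_congr_hom h.poincare
    (postComp_zeroSection_structOver D t)) h2

/-- A morphism to the representing object is zero as soon as the pulled back Poincaré bundle is
trivial. -/
theorem eq_zeroOver_of_isTriv {T : Scheme.{u}} {t : T ⟶ Spec (CommRingCat.of R)}
    (g : SchemeHomOver t D.toBase) (hg : IsTriv (h.poincare.pullbackAlong g)) :
    g = zeroOver D t :=
  h.ext_of_iso t g (zeroOver D t)
    ⟨hg.some ≪≫ (isTriv_pullbackAlong_zeroOver h t).some.symm⟩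

/-- The classifying map of a trivial bundle is zero. -/
theorem classify_eq_zeroOver_of_isTriv {T : Scheme.{u}} {t : T ⟶ Spec (CommRingCat.of R)}
    (M : RigidifiedLineBundle c ε t) (hM : P.P t M) (hT : IsTriv M) :
    h.classify t M hM = zeroOver D t :=
  eq_zeroOver_of_isTriv h _ ⟨(h.classify_spec t M hM).some ≪≫ hT.some⟩

/-- A bundle whose classifying map is zero is trivial. -/
theorem isTriv_of_classify_eq_zeroOver {T : Scheme.{u}} {t : T ⟶ Spec (CommRingCat.of R)}
    (M : RigidifiedLineBundle c ε t) (hM : P.P t M) (h0 : h.classify t M hM = zeroOver D t) :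
    IsTriv M := by
  have h1 := isTriv_pullbackAlong_zeroOver h t
  rw [← h0] at h1
  exact h1.congr (h.classify_spec t M hM)

/-- Naturality of the classifying map. -/
theorem postComp_classify {T T' : Scheme.{u}} {t : T ⟶ Spec (CommRingCat.of R)}
    {t' : T' ⟶ Spec (CommRingCat.of R)} (M : RigidifiedLineBundle c ε t) (hM : P.P t M)
    (ψ : SchemeHomOver t' t) :
    postComp (h.classify t M hM) ψ =
      h.classify t' (M.pullbackAlong ψ) (P.pullback_mem t t' ψ M hM) := by
  apply h.classify_unique
  exact ⟨(pullbackAlongCompIso h.poincare _ ψ).symm ≪≫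
    (Scheme.Modules.pullback (baseChangeSnd c ψ)).mapIso (h.classify_spec t M hM).some⟩

/-- If the restriction of `M` along `ψ` is trivial, the classifying map vanishes on `ψ`. -/
theorem postComp_classify_eq_zeroOver {T T' : Scheme.{u}} {t : T ⟶ Spec (CommRingCat.of R)}
    {t' : T' ⟶ Spec (CommRingCat.of R)} (M : RigidifiedLineBundle c ε t) (hM : P.P t M)
    (ψ : SchemeHomOver t' t) (hψ : IsTriv (M.pullbackAlong ψ)) :
    postComp (h.classify t M hM) ψ = zeroOver D t' := by
  rw [postComp_classify h M hM ψ]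
  exact classify_eq_zeroOver_of_isTriv h _ _ hψ

end Rep

end Fermat.Agent.AV.CCube32
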