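/-
Programme AV (S26/S27), brick CCUBE (helper32), part (D): over an algebraically closed field,
morphisms from a reduced scheme locally of finite type to a separated scheme are determined by
their values on rational points; consequently a rigidified line bundle on `C × T` in the cut
which is trivial on every closed fibre `C × {z}` is trivial.
-/
import Mathlib
import Fermat.Agent.AV.CCube32.Classify

set_option autoImplicit false

noncomputable section

universe u

open CategoryTheory CategoryTheory.Limits AlgebraicGeometry AlgebraicGeometry.RelPicard
  NeronModelInfra GoodReductionJacobian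

namespace Fermat.Agent.AV.CCube32

variable {k : Type u} [Field k] [IsAlgClosed k]

/-- Over an algebraically closed field, two morphisms from a reduced scheme locally of finite type
to a separated scheme agree as soon as they agree on all rational points. -/
theorem hom_ext_of_points {T Y : Scheme.{u}}
    (t : T ⟶ Spec (CommRingCat.of k)) [LocallyOfFiniteType t] [IsReduced T]
    (y : Y ⟶ Spec (CommRingCat.of k)) [IsSeparated y] (φ φ' : SchemeHomOver t y)
    (H : ∀ z : SchemeHomOver (𝟙 (Spec (CommRingCat.of k))) t, postComp φ z = postComp φ' z) :
    φ = φ' := by
  apply Subtype.ext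
  have : JacobsonSpace T := LocallyOfFiniteType.jacobsonSpace t
  refine ext_of_fromSpecResidueField_eq φ.1 φ'.1 y (closedPoints T) ?_ ?_ (φ.2.trans φ'.2.symm)
  · rw [dense_iff_closure_eq]
    exact closure_closedPoints
  · intro x hx
    have hx' : IsClosed {x} := hx
    have hp : T.fromSpecResidueField x =
        Spec.map (residueFieldIsoBase t x hx').inv ≫ pointOfClosedPoint t x hx' := by
      rw [pointOfClosedPoint, ← Category.assoc, ← Spec.map_comp, Iso.hom_inv_id, Spec.map_id,
        Category.id_comp]
    rw [hp, Category.assoc, Category.assoc]
    congr 1
    exact congrArg Subtype.val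
      (H ⟨pointOfClosedPoint t x hx', pointOfClosedPoint_comp t x hx'⟩)

variable {C : Scheme.{u}} {c : C ⟶ Spec (CommRingCat.of k)}
  {ε : SchemeHomOver (𝟙 (Spec (CommRingCat.of k))) c}
  {P : SubPicCondition c ε} {D : RelativePic0Designation k c}

namespace Rep

/-- **Seesaw over a representing object**: a bundle in the cut over a reduced base locally of
finite type over the algebraically closed field `k`, trivial on `C × {z}` for every rational
point `z` of the base, is trivial. -/
theorem isTriv_of_points (h : RepresentsRelSubPic c ε P D) [IsSeparated D.toBase]
    {T : Scheme.{u}} (t : T ⟶ Spec (CommRingCat.of k)) [LocallyOfFiniteType t] [IsReduced T]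
    (M : RigidifiedLineBundle c ε t) (hM : P.P t M)
    (H : ∀ z : SchemeHomOver (𝟙 (Spec (CommRingCat.of k))) t, IsTriv (M.pullbackAlong z)) :
    IsTriv M := by
  apply isTriv_of_classify_eq_zeroOver h M hM
  apply hom_ext_of_points t D.toBase
  intro z
  rw [postComp_classify_eq_zeroOver h M hM z (H z), postComp_zeroOver]

end Rep

end Fermat.Agent.AV.CCube32
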