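/-
Programme AV (S26/S27), brick CCUBE (helper32): the **curve-cube theorem**.

`C` a curve whose cut rigidified Picard functor (algebraic equivalence to zero) is represented by a
separated `k`-scheme `J` locally of finite type (`k` algebraically closed; this is what S25
provides), `U` proper over `k`, `V` locally of finite type over `k`, `W = U ×ₖ V` integral (any
pullback square).  A line bundle on `C × W` which is trivial on the three faces
`{ε} × W`, `C × U × {v₀}`, `C × {u₀} × V` is trivial.

Also the **seesaw form**: a line bundle on `C × T` (`T` integral, locally of finite type over `k`),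
trivial on `{ε} × T` and on `C × {z}` for every rational point `z` of `T`, is trivial.
-/
import Mathlib
import Fermat.Agent.AV.CCube32.Faez
import Fermat.Agent.AV.CCube32.Points
import Fermat.Agent.AV.Rigid81.Rigidity
import Fermat.Agent.Jac.GeomAlgClosed32.Geometric

set_option autoImplicit false

noncomputable section

universe u

open CategoryTheory CategoryTheory.Limits AlgebraicGeometry AlgebraicGeometry.RelPicard
  NeronModelInfra GoodReductionJacobian

namespace Fermat.Agent.AV.CCube32

open Fermat.Agent.AV.Rigid81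

variable {k : Type u} [Field k] [IsAlgClosed k] {C : Scheme.{u}}
  {c : C ⟶ Spec (CommRingCat.of k)} {ε : SchemeHomOver (𝟙 (Spec (CommRingCat.of k))) c}
  {D : RelativePic0Designation k c}

section Seesaw

/-- A rigidified line bundle over an integral base locally of finite type over the algebraically
closed field `k`, trivial over one rational point, lies in the algebraic-equivalence-to-zero
cut. -/
theorem mem_cut_of_point {T : Scheme.{u}} (t : T ⟶ Spec (CommRingCat.of k))
    [LocallyOfFiniteType t] [IsIntegral T] (M : RigidifiedLineBundle c ε t)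
    (z : SchemeHomOver (𝟙 (Spec (CommRingCat.of k))) t) (hz : IsTriv (M.pullbackAlong z)) :
    (algEquivZeroCut c ε).P t M := by
  have : GeometricallyIntegral t :=
    Fermat.Agent.Jac.GeomAlgClosed32.geometricallyIntegral_of_isAlgClosed t
  exact fibrewiseAlgEquivZero_of_point t M z hz

/-- An integral scheme locally of finite type over an algebraically closed field has a rational
point. -/
theorem exists_point {T : Scheme.{u}} (t : T ⟶ Spec (CommRingCat.of k))
    [LocallyOfFiniteType t] [Nonempty T] :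
    Nonempty (SchemeHomOver (𝟙 (Spec (CommRingCat.of k))) t) := by
  have : JacobsonSpace T := LocallyOfFiniteType.jacobsonSpace t
  have hne : (closedPoints T).Nonempty := by
    by_contra hcon
    rw [Set.not_nonempty_iff_eq_empty] at hcon
    have h1 : closure (closedPoints T) = Set.univ := closure_closedPoints
    rw [hcon, closure_empty] at h1
    exact (Set.univ_nonempty (α := T)).ne_empty h1.symm
  obtain ⟨x, hx⟩ := hne
  exact ⟨⟨pointOfClosedPoint t x hx, pointOfClosedPoint_comp t x hx⟩⟩

/-- **Seesaw form**: a rigidified line bundle on `C × T`, `T` integral and locally of finite type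
over `k`, which is trivial on `C × {z}` for every rational point `z` of `T`, is trivial. -/
theorem isTriv_of_forall_point
    (h : RepresentsRelSubPic c ε (algEquivZeroCut c ε) D) [IsSeparated D.toBase]
    {T : Scheme.{u}} (t : T ⟶ Spec (CommRingCat.of k)) [LocallyOfFiniteType t] [IsIntegral T]
    (M : RigidifiedLineBundle c ε t)
    (H : ∀ z : SchemeHomOver (𝟙 (Spec (CommRingCat.of k))) t, IsTriv (M.pullbackAlong z)) :
    IsTriv M := by
  obtain ⟨z⟩ := exists_point t
  exact Rep.isTriv_of_points h t M (mem_cut_of_point t M z (H z)) H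

/-- The seesaw form for bare modules. -/
theorem nonempty_iso_unit_of_forall_point
    (h : RepresentsRelSubPic c ε (algEquivZeroCut c ε) D) [IsSeparated D.toBase]
    {T : Scheme.{u}} (t : T ⟶ Spec (CommRingCat.of k)) [LocallyOfFiniteType t] [IsIntegral T]
    (M : (pullback c t).Modules) (hM : M.IsInvertible)
    (hε : Nonempty ((Scheme.Modules.pullback (rigSection c t ε)).obj M ≅
      SheafOfModules.unit T.ringCatSheaf))
    (H : ∀ z : SchemeHomOver (𝟙 (Spec (CommRingCat.of k))) t,
      Nonempty ((Scheme.Modules.pullback (baseChangeSnd c z)).obj M ≅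
        SheafOfModules.unit (pullback c (𝟙 (Spec (CommRingCat.of k)))).ringCatSheaf)) :
    Nonempty (M ≅ SheafOfModules.unit (pullback c t).ringCatSheaf) :=
  isTriv_of_forall_point h t ⟨M, hM, hε⟩ H

end Seesaw

section Cube

variable {U V W : Scheme.{u}} (u : U ⟶ Spec (CommRingCat.of k)) (v : V ⟶ Spec (CommRingCat.of k))
  {p1 : W ⟶ U} {p2 : W ⟶ V} (hW : IsPullback p1 p2 u v)

/-- The axis `U × {v₀}` of the product, as a morphism over `k`. -/
def axisL (v₀ : Spec (CommRingCat.of k) ⟶ V) (hv₀ : v₀ ≫ v = 𝟙 _) :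
    SchemeHomOver u (p1 ≫ u) :=
  ⟨slice u v hW v₀ hv₀, by rw [slice_fst_assoc]⟩

/-- The axis `{u₀} × V` of the product, as a morphism over `k`. -/
def axisR (u₀ : Spec (CommRingCat.of k) ⟶ U) (hu₀ : u₀ ≫ u = 𝟙 _) :
    SchemeHomOver v (p1 ≫ u) :=
  ⟨sliceR u v hW u₀ hu₀, by rw [sliceR_fst_assoc, hu₀, Category.comp_id]⟩

@[simp]
theorem axisL_coe (v₀ : Spec (CommRingCat.of k) ⟶ V) (hv₀ : v₀ ≫ v = 𝟙 _) :
    (axisL u v hW v₀ hv₀).1 = slice u v hW v₀ hv₀ := rfl

@[simp]
theorem axisR_coe (u₀ : Spec (CommRingCat.of k) ⟶ U) (hu₀ : u₀ ≫ u = 𝟙 _) :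
    (axisR u v hW u₀ hu₀).1 = sliceR u v hW u₀ hu₀ := rfl

/-- **Curve-cube theorem.** -/
theorem ccube (h : RepresentsRelSubPic c ε (algEquivZeroCut c ε) D)
    [IsSeparated D.toBase] [LocallyOfFiniteType D.toBase]
    [IsProper u] [LocallyOfFiniteType v] [IsIntegral W]
    (u₀ : Spec (CommRingCat.of k) ⟶ U) (hu₀ : u₀ ≫ u = 𝟙 _)
    (v₀ : Spec (CommRingCat.of k) ⟶ V) (hv₀ : v₀ ≫ v = 𝟙 _)
    (M : RigidifiedLineBundle c ε (p1 ≫ u))
    (hU : IsTriv (M.pullbackAlong (axisL u v hW v₀ hv₀)))
    (hV : IsTriv (M.pullbackAlong (axisR u v hW u₀ hu₀))) :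
    IsTriv M := by
  have : LocallyOfFiniteType p1 := locallyOfFiniteType_fst u v hW
  have : LocallyOfFiniteType (p1 ≫ u) := inferInstance
  -- the base point `(u₀, v₀)`
  have hz : IsTriv (M.pullbackAlong (postComp (axisL u v hW v₀ hv₀)
      (⟨u₀, hu₀⟩ : SchemeHomOver (𝟙 (Spec (CommRingCat.of k))) u))) :=
    IsTriv.congr ⟨pullbackAlongCompIso M _ _⟩ (hU.pullbackAlong ⟨u₀, hu₀⟩)
  have hM := mem_cut_of_point (p1 ≫ u) M _ hz
  apply Rep.isTriv_of_classify_eq_zeroOver h M hM
  have H1 := congrArg Subtype.val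
    (Rep.postComp_classify_eq_zeroOver h M hM (axisL u v hW v₀ hv₀) hU)
  have H2 := congrArg Subtype.val
    (Rep.postComp_classify_eq_zeroOver h M hM (axisR u v hW u₀ hu₀) hV)
  apply Subtype.ext
  exact eq_const_of_axes u v D.toBase hW (h.classify _ M hM).1 (h.classify _ M hM).2
    u₀ hu₀ v₀ hv₀ D.zeroSection H1 H2

/-- The curve-cube theorem for bare modules. -/
theorem ccube_modules (h : RepresentsRelSubPic c ε (algEquivZeroCut c ε) D)
    [IsSeparated D.toBase] [LocallyOfFiniteType D.toBase]
    [IsProper u] [LocallyOfFiniteType v] [IsIntegral W]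
    (u₀ : Spec (CommRingCat.of k) ⟶ U) (hu₀ : u₀ ≫ u = 𝟙 _)
    (v₀ : Spec (CommRingCat.of k) ⟶ V) (hv₀ : v₀ ≫ v = 𝟙 _)
    (M : (pullback c (p1 ≫ u)).Modules) (hM : M.IsInvertible)
    (hε : Nonempty ((Scheme.Modules.pullback (rigSection c (p1 ≫ u) ε)).obj M ≅
      SheafOfModules.unit W.ringCatSheaf))
    (hU : Nonempty ((Scheme.Modules.pullback (baseChangeSnd c (axisL u v hW v₀ hv₀))).obj M ≅
      SheafOfModules.unit (pullback c u).ringCatSheaf))
    (hV : Nonempty ((Scheme.Modules.pullback (baseChangeSnd c (axisR u v hW u₀ hu₀))).obj M ≅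
      SheafOfModules.unit (pullback c v).ringCatSheaf)) :
    Nonempty (M ≅ SheafOfModules.unit (pullback c (p1 ≫ u)).ringCatSheaf) :=
  ccube u v hW h u₀ hu₀ v₀ hv₀ ⟨M, hM, hε⟩ hU hV

end Cube

end Fermat.Agent.AV.CCube32
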