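/-
Programme AV (S26/S27), brick CCUBE (helper32): the curve-cube theorem and the seesaw form,
**unconditionally** for a smooth proper integral pointed curve over an algebraically closed field
(the representing object is provided by S25).
-/
import Mathlib
import Fermat.Agent.S25
import Fermat.Agent.AV.CCube32.Cube

set_option autoImplicit false

noncomputable section

universe u

open CategoryTheory CategoryTheory.Limits AlgebraicGeometry AlgebraicGeometry.RelPicard
  NeronModelInfra GoodReductionJacobian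

namespace Fermat.Agent.AV.CCube32

variable {k : Type u} [Field k] [IsAlgClosed k] {C : Scheme.{u}}
  (c : C ⟶ Spec (CommRingCat.of k)) [IsProper c] [SmoothOfRelativeDimension 1 c] [IsIntegral C]
  (ε : SchemeHomOver (𝟙 (Spec (CommRingCat.of k))) c)

/-- S25, repackaged: the Jacobian of a smooth proper integral pointed curve over an algebraically
closed field, as a proper representing object. -/
theorem exists_jacobian :
    ∃ (D : RelativePic0Designation k c),
      Nonempty (RepresentsRelSubPic c ε (algEquivZeroCut c ε) D) ∧ IsProper D.toBase := by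
  obtain ⟨D, hD, -, hp, -⟩ := Fermat.Agent.S25.result k c ε
  exact ⟨D, hD, hp⟩

/-- **Seesaw form for curves** (unconditional). -/
theorem seesaw_curve {T : Scheme.{u}} (t : T ⟶ Spec (CommRingCat.of k)) [LocallyOfFiniteType t]
    [IsIntegral T] (M : RigidifiedLineBundle c ε t)
    (H : ∀ z : SchemeHomOver (𝟙 (Spec (CommRingCat.of k))) t, IsTriv (M.pullbackAlong z)) :
    IsTriv M := by
  obtain ⟨D, ⟨h⟩, hp⟩ := exists_jacobian c ε
  exact isTriv_of_forall_point h t M H

/-- The seesaw form for curves, for bare modules. -/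
theorem seesaw_curve_modules {T : Scheme.{u}} (t : T ⟶ Spec (CommRingCat.of k))
    [LocallyOfFiniteType t] [IsIntegral T]
    (M : (pullback c t).Modules) (hM : M.IsInvertible)
    (hε : Nonempty ((Scheme.Modules.pullback (rigSection c t ε)).obj M ≅
      SheafOfModules.unit T.ringCatSheaf))
    (H : ∀ z : SchemeHomOver (𝟙 (Spec (CommRingCat.of k))) t,
      Nonempty ((Scheme.Modules.pullback (baseChangeSnd c z)).obj M ≅
        SheafOfModules.unit (pullback c (𝟙 (Spec (CommRingCat.of k)))).ringCatSheaf)) :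
    Nonempty (M ≅ SheafOfModules.unit (pullback c t).ringCatSheaf) :=
  seesaw_curve c ε t ⟨M, hM, hε⟩ H

variable {U V W : Scheme.{u}} (u : U ⟶ Spec (CommRingCat.of k)) (v : V ⟶ Spec (CommRingCat.of k))
  {p1 : W ⟶ U} {p2 : W ⟶ V} (hW : IsPullback p1 p2 u v)

/-- **Curve-cube theorem** (unconditional). -/
theorem ccube_curve [IsProper u] [LocallyOfFiniteType v] [IsIntegral W]
    (u₀ : Spec (CommRingCat.of k) ⟶ U) (hu₀ : u₀ ≫ u = 𝟙 _)
    (v₀ : Spec (CommRingCat.of k) ⟶ V) (hv₀ : v₀ ≫ v = 𝟙 _)
    (M : RigidifiedLineBundle c ε (p1 ≫ u))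
    (hU : IsTriv (M.pullbackAlong (axisL u v hW v₀ hv₀)))
    (hV : IsTriv (M.pullbackAlong (axisR u v hW u₀ hu₀))) :
    IsTriv M := by
  obtain ⟨D, ⟨h⟩, hp⟩ := exists_jacobian c ε
  exact ccube u v hW h u₀ hu₀ v₀ hv₀ M hU hV

/-- The curve-cube theorem (unconditional) for bare modules. -/
theorem ccube_curve_modules [IsProper u] [LocallyOfFiniteType v] [IsIntegral W]
    (u₀ : Spec (CommRingCat.of k) ⟶ U) (hu₀ : u₀ ≫ u = 𝟙 _)
    (v₀ : Spec (CommRingCat.of k) ⟶ V) (hv₀ : v₀ ≫ v = 𝟙 _)
    (M : (pullback c (p1 ≫ u)).Modules) (hM : M.IsInvertible)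
    (hε : Nonempty ((Scheme.Modules.pullback (rigSection c (p1 ≫ u) ε)).obj M ≅
      SheafOfModules.unit W.ringCatSheaf))
    (hU : Nonempty ((Scheme.Modules.pullback (baseChangeSnd c (axisL u v hW v₀ hv₀))).obj M ≅
      SheafOfModules.unit (pullback c u).ringCatSheaf))
    (hV : Nonempty ((Scheme.Modules.pullback (baseChangeSnd c (axisR u v hW u₀ hu₀))).obj M ≅
      SheafOfModules.unit (pullback c v).ringCatSheaf)) :
    Nonempty (M ≅ SheafOfModules.unit (pullback c (p1 ≫ u)).ringCatSheaf) :=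
  ccube_curve c ε u v hW u₀ hu₀ v₀ hv₀ ⟨M, hM, hε⟩ hU hV

end Fermat.Agent.AV.CCube32
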