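/-
Programme AV (S26/S27), brick CCUBE (helper32): the representability hypothesis `hrep` of
`Cube82.inS_sumPt` / `Cube82/Formula.lean`, unconditionally for a list of pointed curves
(S25 format), from `CCube32.exists_jacobian` (= S25).
-/
import Mathlib
import Fermat.Agent.AV.CCube32.CurveCube
import Fermat.Agent.AV.Curv33.Iface

set_option autoImplicit false

noncomputable section

universe u

open CategoryTheory CategoryTheory.Limits AlgebraicGeometry AlgebraicGeometry.RelPicard
  NeronModelInfra GoodReductionJacobian

namespace Fermat.Agent.AV.CCube32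

/-- The Jacobian of a pointed curve in the S25 format: a separated representing object, locally
of finite type. -/
theorem hrep_of_curve {K : Type u} [Field K] [IsAlgClosed K] {A : Scheme.{u}}
    {f : A ⟶ Spec (CommRingCat.of K)} {e : SchemeHomOver (𝟙 (Spec (CommRingCat.of K))) f}
    (X : Curv33.CurveTo f e) :
    ∃ (D : RelativePic0Designation K X.c)
      (_ : RepresentsRelSubPic X.c X.ε (algEquivZeroCut X.c X.ε) D),
      IsSeparated D.toBase ∧ LocallyOfFiniteType D.toBase := by
  obtain ⟨D, ⟨h⟩, hp⟩ := exists_jacobian X.c X.ε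
  exact ⟨D, h, inferInstance, inferInstance⟩

/-- **`hrep` for a list of pointed curves.** -/
theorem hrep_of_list {K : Type u} [Field K] [IsAlgClosed K] {A : Scheme.{u}}
    {f : A ⟶ Spec (CommRingCat.of K)} {e : SchemeHomOver (𝟙 (Spec (CommRingCat.of K))) f}
    (l : List (Curv33.CurveTo f e)) :
    ∀ X ∈ l, ∃ (D : RelativePic0Designation K X.c)
      (_ : RepresentsRelSubPic X.c X.ε (algEquivZeroCut X.c X.ε) D),
      IsSeparated D.toBase ∧ LocallyOfFiniteType D.toBase :=
  fun X _ => hrep_of_curve X

end Fermat.Agent.AV.CCube32
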